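import Fermat.Agent.ES.LemmaL
import Fermat.Agent.ES.Forms.GalChar
import Mathlib.RingTheory.PowerSeries.Expand

/-!
# Integral normalisation of forms with multiplier, and change of period
-/

set_option autoImplicit false

open UpperHalfPlane CongruenceSubgroup
open scoped MatrixGroups ModularForm Manifold

noncomputable section

namespace FermatAgent.ES

/-- `q ^ (1 / (r M))` to the power `r` is `q ^ (1 / M)`. -/
theorem qm_mul_pow {M r : ℕ} (hr : r ≠ 0) (τ : ℍ) : qm (r * M) τ ^ r = qm M τ := by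
  rw [qm_eq, qm_eq, ← Complex.exp_nat_mul]
  congr 1
  have hr' : (r : ℂ) ≠ 0 := Nat.cast_ne_zero.mpr hr
  push_cast
  field_simp

/-- An expansion in `q ^ (1 / M)` gives one in `q ^ (1 / (r M))`. -/
theorem HasExp.expand {M r : ℕ} (hr : r ≠ 0) {f : ℍ → ℂ} {c : PowerSeries ℂ} (h : HasExp M f c) :
    HasExp (r * M) f (PowerSeries.expand r hr c) := by
  intro τ
  have hinj : Function.Injective fun e : ℕ => r * e := mul_right_injective₀ hr
  refine (hinj.hasSum_iff fun e he => ?_).mp ?_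
  · rw [PowerSeries.coeff_expand_of_not_dvd r hr, zero_mul]
    rintro ⟨q, rfl⟩
    exact he ⟨q, rfl⟩
  · refine (h τ).congr_fun fun e => ?_
    rw [Function.comp_apply, PowerSeries.coeff_expand_mul, pow_mul, qm_mul_pow hr]

/-- Every level prime to `ℓ` divides an auxiliary level prime to `ℓ`. -/
theorem exists_auxLevel_coprime {ℓ N : ℕ} (hℓ : ℓ.Prime) (hN : ¬ ℓ ∣ N) [NeZero N] :
    ∃ M m r : ℕ, AuxLevel M m ∧ M.Coprime ℓ ∧ N ∣ M ∧ r ≠ 0 ∧ 12 * N = r * M := by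
  have hNℓ : N.Coprime ℓ := (hℓ.coprime_iff_not_dvd.mpr hN).symm
  have h1 := NeZero.one_le (n := N)
  by_cases h3 : ℓ = 3
  · exact ⟨4 * N, 2, 3, ⟨Or.inl rfl, ⟨2 * N, by ring⟩, by omega⟩,
      Nat.Coprime.mul_left (by subst h3; norm_num) hNℓ, dvd_mul_left N 4, by norm_num, by ring⟩
  · exact ⟨3 * N, 3, 4, ⟨Or.inr rfl, dvd_mul_right 3 N, by omega⟩,
      Nat.Coprime.mul_left ((Nat.coprime_primes Nat.prime_three hℓ).mpr (Ne.symm h3)) hNℓ,
      dvd_mul_left N 3, by norm_num, by ring⟩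

/-- Embedded algebraic numbers are algebraic. -/
theorem isAlgebraic_embC (y : AlgebraicClosure ℚ) : IsAlgebraic ℚ (embC y) :=
  (Algebra.IsAlgebraic.isAlgebraic y).algHom embC

section Scale

variable {ℓ : ℕ} {P : CPlace ℓ} {M m : ℕ} [NeZero M] (haux : AuxLevel M m)
  {Γ : Subgroup SL(2, ℤ)} {n : ℕ} [NeZero n] {j : ℕ} {φ : Γ →* ℂˣ} {v : ℍ → ℂ}
include haux

/-- The coefficients of a form with multiplier of order prime to `ℓ` are bounded, and the bound is
attained. -/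
theorem exists_max_coeff (hΓ : Gamma M ≤ Γ) (hP : P.HasCDVRs) (hM : M.Coprime ℓ)
    (hn : n.Coprime ℓ) (hφn : φ ^ n = 1) (hv : IsTwist Γ ((2 * j : ℕ) : ℤ) φ v) (hv0 : v ≠ 0)
    {c : PowerSeries ℂ} (hc : HasExp M v c) :
    ∃ i, PowerSeries.coeff i c ≠ 0 ∧
      ∀ k, P.abv (PowerSeries.coeff k c) ≤ P.abv (PowerSeries.coeff i c) := by
  obtain ⟨τ0, hτ0⟩ := Function.ne_iff.mp hv0
  have hW0 := pow_ne_zero j (auxW_ne_zero haux τ0)
  have hyB := pow_form_mem haux hΓ hφn hv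
  have hy0 : (fun τ => v τ / auxW haux τ ^ j) ^ n ≠ 0 :=
    fun h => pow_ne_zero n (div_ne_zero hτ0 hW0) (congrFun h τ0)
  obtain ⟨b, hb, g, hg, hyg, hgu⟩ := Curve.Red.exists_normalize_one P haux hM hyB hy0
  obtain ⟨a, ha⟩ := IsAlgClosed.exists_pow_nat_eq b⁻¹ (NeZero.pos n)
  have ha0 : a ≠ 0 := fun h => inv_ne_zero hb (by rw [← ha, h, zero_pow (NeZero.ne n)])
  have hva : IsTwist Γ ((2 * j : ℕ) : ℤ) φ (a • v) := hv.smul a
  have hge : (fun τ => (a • v) τ / auxW haux τ ^ j) ^ n = g := funext fun τ => by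
    have h := congrFun hyg τ
    simp only [Pi.pow_apply, Pi.mul_apply] at h
    simp only [Pi.pow_apply, Pi.smul_apply, smul_eq_mul, mul_div_assoc]
    rw [mul_pow, ha, h, ← mul_assoc, inv_mul_cancel₀ hb, one_mul]
  set cs := HahnSeries.ofPowerSeries ℤ ℂ (PowerSeries.C a * c) with hcs
  set s := cs * (auxSer haux 1 ^ j)⁻¹ with hs
  have hca : HasExp M (a • v) (PowerSeries.C a * c) := (hc.smul a).congr_fun fun τ => rfl
  have hspow : s ^ n = lexp M 1 g := (lexp_eq ((hasLExp_form_div haux (f := a • v) (γ := 1) (j := j)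
    (by rwa [SlashAction.slash_one])).pow n |>.congr_fun fun τ => by
      rw [← hge]; simp)).symm
  have hg0 : g ≠ 0 := fun h => hy0 (by rw [hyg, h, mul_zero])
  have hord : ∀ τ (i : ℕ), vanishOrd g τ = i → n ∣ i := fun τ i hi =>
    vanishOrd_pow_form haux hφn hva τ i (hge ▸ hi)
  have hu : P.UnitCoeff (lexp M 1 g) := hgu
  have hsin : SerIn P.ring s :=
    serIn_root_of_unitCoeff haux hM hP hn ⟨g, hg⟩ hg0 hord 1 hspow hu
  have hsu : P.UnitCoeff s := by
    by_contra hno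
    have hlt := CPlace.serLT_of_not_unitCoeff hsin hno
    obtain ⟨q, hq⟩ := Nat.exists_eq_succ_of_ne_zero (NeZero.ne n)
    rw [← hspow, hq, pow_succ'] at hu
    exact (hlt.mul_serIn (hsin.pow q)).not_unitCoeff hu
  obtain ⟨k, hk⟩ := exists_leadUnit_auxSer haux (P.goodRoot hM) 1
  have hcs1 : cs = s * auxSer haux 1 ^ j := by
    rw [hs, mul_assoc, inv_mul_cancel₀ (pow_ne_zero _ hk.ne_zero), mul_one]
  have hcsin : SerIn P.ring cs := hcs1 ▸ hsin.mul (hk.pow j).serIn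
  obtain ⟨i, hi⟩ := (hcs1 ▸ CPlace.UnitCoeff.mul hsin (hk.pow j).serIn hsu
    (LeadUnit.unitCoeff (hk.pow j)) : P.UnitCoeff cs)
  rcases le_or_gt 0 i with hi0 | hi0
  · lift i to ℕ using hi0
    have hcoef : ∀ e : ℕ, cs.coeff (e : ℤ) = a * PowerSeries.coeff e c := fun e => by
      rw [hcs, HahnSeries.ofPowerSeries_apply_coeff, PowerSeries.coeff_C_mul]
    rw [hcoef, map_mul] at hi
    refine ⟨i, fun h => by simp [h] at hi, fun e => ?_⟩
    have he : P.abv a * P.abv (PowerSeries.coeff e c) ≤ 1 := by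
      rw [← map_mul, ← hcoef]; exact hcsin _
    rw [← hi] at he
    exact le_of_mul_le_mul_left he (P.abv.pos ha0)
  · rw [hcs, HahnSeries.ofPowerSeries_apply, HahnSeries.embDomain_of_notMem_range] at hi
    · simp at hi
    · rintro ⟨q, hq⟩; simp at hq; omega

/-- `mult_eq_one` for series with coefficients in the valuation ring. -/
theorem mult_eq_one_res (hΓ : Gamma M ≤ Γ) (hP : P.HasCDVRs) (hM : M.Coprime ℓ)
    (hn : n.Coprime ℓ) (hφn : φ ^ n = 1) (hφ : IsParChar Γ φ)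
    (hv : IsTwist Γ ((2 * j : ℕ) : ℤ) φ v) {g : ℍ → ℂ} (hg : IsTwist Γ ((2 * j : ℕ) : ℤ) 1 g)
    {c d : PowerSeries P.ring} (hc : HasExp M v (PowerSeries.map P.ring.subtype c))
    (hd : HasExp M g (PowerSeries.map P.ring.subtype d))
    (hcd : PowerSeries.map P.res c = PowerSeries.map P.res d)
    (hd0 : PowerSeries.map P.res d ≠ 0) : φ = 1 := by
  refine mult_eq_one haux hΓ hP hM hn hφn hφ hv hg hc hd (fun i => ?_) (fun i => ?_)
    (fun i => ?_) ?_
  · rw [PowerSeries.coeff_map]; exact (PowerSeries.coeff i c).2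
  · rw [PowerSeries.coeff_map]; exact (PowerSeries.coeff i d).2
  · rw [PowerSeries.coeff_map, PowerSeries.coeff_map]
    exact P.map_res_eq_iff.mp hcd i
  · obtain ⟨i, hi⟩ := P.exists_abv_eq_one_of_map_res_ne hd0
    exact ⟨i, by rw [PowerSeries.coeff_map]; exact hi⟩

end Scale

section Level

variable {N : ℕ} [NeZero N] {Γ : Subgroup SL(2, ℤ)} {M m : ℕ} [NeZero M] (haux : AuxLevel M m)
  {n : ℕ} [NeZero n]
include haux

/-- Conjugate forms at any auxiliary level. -/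
theorem exists_conj_level (hG : GoodLevel N Γ) (hNM : N ∣ M) {r : ℕ} (hr : r ≠ 0)
    (h12 : 12 * N = r * M) (σ : ℂ ≃+* ℂ) (φ : parGroup Γ n) {i : ℕ} {v : ℍ → ℂ}
    (hv : IsTwist Γ ((2 * i : ℕ) : ℤ) (φ : Γ →* ℂˣ) v) (hv0 : v ≠ 0) {c : PowerSeries ℂ}
    (hc : HasExp M v c) :
    ∃ v' : ℍ → ℂ, IsTwist Γ ((2 * i : ℕ) : ℤ) (conjChar hG σ φ : Γ →* ℂˣ) v' ∧ v' ≠ 0 ∧
      HasExp M v' (c.map (σ : ℂ →+* ℂ)) := by
  obtain ⟨a, ha, hσ⟩ := exists_unit_exponent M σ
  obtain ⟨φ', v', hv', hv'0, hn', hp', hser⟩ := exists_conj_twist haux hNM hG.toGalStable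
    hG.neg_mem ha hσ (NeZero.pos n) φ.2.1 φ.2.2 hv hv0
  have h' := hser c hc
  have hct : IsConjTwist N Γ σ φ φ' := by
    refine ⟨i, v, v', PowerSeries.expand r hr c, hv, hv0, hv', hv'0, h12 ▸ hc.expand hr, ?_⟩
    rw [PowerSeries.map_expand]
    exact h12 ▸ h'.expand hr
  rw [conjChar_eq hG (φ' := ⟨φ', hn', hp'⟩) hct]
  exact ⟨v', hv', hv'0, h'⟩

/-- A form with multiplier `φ` whose expansion is algebraic, integral and nonzero modulo `P`. -/
theorem exists_int_form (hG : GoodLevel N Γ) (hNM : N ∣ M) {r : ℕ} (hr : r ≠ 0)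
    (h12 : 12 * N = r * M) {ℓ : ℕ} {P : CPlace ℓ} (hP : P.HasCDVRs) (hM : M.Coprime ℓ)
    (hn : n.Coprime ℓ) (φ : parGroup Γ n) :
    ∃ (v : ℍ → ℂ) (c : PowerSeries P.ring), IsTwist Γ ((2 * 2 : ℕ) : ℤ) (φ : Γ →* ℂˣ) v ∧
      v ≠ 0 ∧ HasExp M v (c.map P.ring.subtype) ∧ c.map P.res ≠ 0 ∧
      ∀ e, IsAlgebraic ℚ ((PowerSeries.coeff e c : P.ring) : ℂ) := by
  obtain ⟨v, c12, hv, hv0, hc12, halg⟩ := exists_algebraic_form hG φ
  have hv4 : IsTwist Γ ((2 * 2 : ℕ) : ℤ) (φ : Γ →* ℂˣ) v := by exact_mod_cast hv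
  have hΓ : Gamma M ≤ Γ := (gamma_le_of_dvd hNM).trans hG.gamma_le
  have hcM : HasExp M v (qExpansion (M : ℝ) v) := by
    have h := hasExp_slash_twist (M := M) hΓ φ.2.2 hv4 1
    rwa [SlashAction.slash_one] at h
  set cM := qExpansion (M : ℝ) v
  have he : c12 = PowerSeries.expand r hr cM := hc12.series_unique (h12 ▸ hcM.expand hr)
  have hMalg : ∀ e, IsAlgebraic ℚ (PowerSeries.coeff e cM) := fun e => by
    have h := halg (r * e)
    rwa [he, PowerSeries.coeff_expand_mul] at h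
  obtain ⟨i, hi0, himax⟩ := exists_max_coeff haux hΓ hP hM hn φ.2.1 hv4 hv0 hcM
  set a := (PowerSeries.coeff i cM)⁻¹
  have hin : ∀ e, a * PowerSeries.coeff e cM ∈ P.ring := fun e => by
    rw [P.mem_ring, map_mul, map_inv₀, inv_mul_le_one₀ (P.abv.pos hi0)]
    exact himax e
  refine ⟨a • v, PowerSeries.mk fun e => ⟨_, hin e⟩, hv4.smul a,
    smul_ne_zero (inv_ne_zero hi0) hv0, ?_, fun h => ?_, fun e => ?_⟩
  · convert (hcM.smul a).congr_fun (g := a • v) (fun τ => rfl) using 1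
    ext e
    simp [PowerSeries.coeff_C_mul]
  · have h1 := congrArg (PowerSeries.coeff i) h
    rw [PowerSeries.coeff_map, PowerSeries.coeff_mk, map_zero, P.res_eq_zero_iff] at h1
    simp [a, hi0] at h1
  · obtain ⟨y, hy⟩ := exists_embC_eq (hMalg i)
    obtain ⟨z, hz⟩ := exists_embC_eq (hMalg e)
    rw [PowerSeries.coeff_mk]
    show IsAlgebraic ℚ (a * _)
    simp only [a, ← hy, ← hz, ← map_inv₀, ← map_mul]
    exact isAlgebraic_embC _

end Level

section Residue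

variable {ℓ : ℕ} {P : CPlace ℓ}

/-- An algebraic number is a nonunit of the valuation ring iff its absolute value is `< 1`. -/
theorem embC_mem_nonunits_iff [Fact ℓ.Prime] {z : AlgebraicClosure ℚ} :
    z ∈ P.algVal.nonunits ↔ P.abv (embC z) < 1 := by
  rw [ValuationSubring.mem_nonunits_iff]
  rcases eq_or_ne z 0 with rfl | hz
  · simp
  rw [← not_le, ← not_le, not_iff_not]
  have h : z⁻¹ ∈ P.algVal ↔ 1 ≤ P.algVal.valuation z := by
    rw [← P.algVal.valuation_le_one_iff, map_inv₀, inv_le_one₀ (by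
      rw [zero_lt_iff]; simpa using hz)]
  rw [← h, CPlace.mem_algVal, map_inv₀, map_inv₀, inv_le_one₀ (P.abv.pos (by simpa using hz))]

/-- An element of the decomposition group acting as `x ↦ x ^ q` on the residue field. -/
theorem abv_autC_sub_pow_lt [Fact ℓ.Prime] {g : GQ} {q : ℕ}
    (h : ∃ hg : g ∈ P.algVal.decompositionSubgroup ℚ, ∀ x : IsLocalRing.ResidueField P.algVal,
      (⟨g, hg⟩ : P.algVal.decompositionSubgroup ℚ) • x = x ^ q)
    {x : ℂ} (hx : IsAlgebraic ℚ x) (hx1 : P.abv x ≤ 1) :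
    P.abv (autC g x) ≤ 1 ∧ P.abv (autC g x - x ^ q) < 1 := by
  obtain ⟨hg, h⟩ := h
  obtain ⟨y, rfl⟩ := exists_embC_eq hx
  set a : P.algVal := ⟨y, CPlace.mem_algVal.mpr hx1⟩
  set g' : P.algVal.decompositionSubgroup ℚ := ⟨g, hg⟩
  rw [autC_spec]
  refine ⟨CPlace.mem_algVal.mp (g' • a).2, ?_⟩
  have h1 := h (IsLocalRing.residue P.algVal a)
  rw [← IsLocalRing.ResidueField.residue_smul, ← map_pow, ← sub_eq_zero, ← map_sub,
    IsLocalRing.residue_eq_zero_iff, ← ValuationSubring.coe_mem_nonunits_iff,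
    embC_mem_nonunits_iff] at h1
  rw [← map_pow, ← map_sub]
  exact h1

/-- An element of the decomposition group raising residues to the power `q` does so on the
coefficients of integral algebraic series. -/
theorem exists_map_res_autC [Fact ℓ.Prime] {g : GQ} {q : ℕ}
    (h : ∃ hg : g ∈ P.algVal.decompositionSubgroup ℚ, ∀ x : IsLocalRing.ResidueField P.algVal,
      (⟨g, hg⟩ : P.algVal.decompositionSubgroup ℚ) • x = x ^ q)
    (c : PowerSeries P.ring) (hc : ∀ e, IsAlgebraic ℚ ((PowerSeries.coeff e c : P.ring) : ℂ)) :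
    ∃ d : PowerSeries P.ring,
      d.map P.ring.subtype = (c.map P.ring.subtype).map ((autC g : ℂ ≃+* ℂ) : ℂ →+* ℂ) ∧
      ∀ e, P.res (PowerSeries.coeff e d) = P.res (PowerSeries.coeff e c) ^ q := by
  refine ⟨PowerSeries.mk fun e =>
    ⟨_, (abv_autC_sub_pow_lt h (hc e) (PowerSeries.coeff e c).2).1⟩, ?_, fun e => ?_⟩
  · ext e; simp
  · rw [← map_pow, P.res_eq_iff, PowerSeries.coeff_mk, SubmonoidClass.coe_pow]
    exact (abv_autC_sub_pow_lt h (hc e) (PowerSeries.coeff e c).2).2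

end Residue

end FermatAgent.ES
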