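import Fermat.Agent.ES.Cong.Normalize
import Fermat.Agent.Period.Hecke

/-!
# Transfer of forms with multiplier
-/

set_option autoImplicit false

open UpperHalfPlane CongruenceSubgroup OnePoint
open scoped MatrixGroups ModularForm Manifold

noncomputable section

namespace FermatAgent.ES

open FermatAgent.Period (TransferData)

variable {Γ : Subgroup SL(2, ℤ)} {ι : Type} [Fintype ι]

/-- The transfer of a character. -/
def charOp (D : TransferData Γ ι) {A : Type*} [CommMonoid A] (φ : Γ →* A) : Γ →* A where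
  toFun γ := ∏ i, φ (D.factor γ i)
  map_one' := by simp [TransferData.factor_one]
  map_mul' γ δ := by
    simp only [TransferData.factor_mul, map_mul, Finset.prod_mul_distrib]
    congr 1
    exact Equiv.prod_comp (D.perm γ) fun i => φ (D.factor δ i)

/-- The transfer of a character is the product of its values at the factors. -/
theorem charOp_apply (D : TransferData Γ ι) {A : Type*} [CommMonoid A] (φ : Γ →* A) (γ : Γ) :
    charOp D φ γ = ∏ i, φ (D.factor γ i) := rfl

/-- The transfer of the trivial character is trivial. -/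
theorem charOp_one (D : TransferData Γ ι) {A : Type*} [CommMonoid A] :
    charOp D (1 : Γ →* A) = 1 := MonoidHom.ext fun γ => by simp [charOp_apply]

/-- Transfers of parabolic characters are parabolic. -/
theorem isParChar_charOp (D : TransferData Γ ι) {φ : Γ →* ℂˣ} (hφ : IsParChar Γ φ) :
    IsParChar Γ (charOp D φ) := by
  intro γ hγ
  have h := D.isParabolicHom_op ℕ (φ := MonoidHom.toAdditive φ)
    (fun δ hδ => congrArg Additive.ofMul (hφ δ hδ)) γ hγ
  rw [TransferData.op_apply] at h
  exact h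

/-- The transfer preserves parabolic characters of exponent `n`. -/
theorem charOp_mem_parGroup (D : TransferData Γ ι) {n : ℕ} {φ : Γ →* ℂˣ}
    (hφ : φ ∈ parGroup Γ n) : charOp D φ ∈ parGroup Γ n := by
  refine ⟨MonoidHom.ext fun γ => ?_, isParChar_charOp D hφ.2⟩
  rw [MonoidHom.pow_apply, charOp_apply, ← Finset.prod_pow, MonoidHom.one_apply]
  exact Finset.prod_eq_one fun i _ => DFunLike.congr_fun hφ.1 _

/-- Forms with multiplier are bounded at all rational cusps. -/
theorem IsTwist.bdd_of_int {k : ℤ} {φ : Γ →* ℂˣ} {v : ℍ → ℂ} (hv : IsTwist Γ k φ v)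
    (A : GL (Fin 2) ℝ) (hA : ∀ i j, ∃ z : ℤ, (A : Matrix (Fin 2) (Fin 2) ℝ) i j = z) :
    IsBoundedAtImInfty (v ∣[k] A) := by
  have hc : IsCusp (A • (∞ : OnePoint ℝ)) 𝒮ℒ := by
    rw [isCusp_SL2Z_iff, smul_infty_eq_ite]
    split_ifs with h
    · exact ⟨∞, rfl⟩
    · obtain ⟨p, hp⟩ := hA 0 0
      obtain ⟨q, hq⟩ := hA 1 0
      exact ⟨((p : ℚ) / q : ℚ), by simp [hp, hq]⟩
  exact (isBoundedAt_iff_forall_SL2Z hc).mpr (fun γ _ => hv.bdd γ) A rfl

/-- The transfer of a form. -/
def transferFun (D : TransferData Γ ι) (k : ℤ) (v : ℍ → ℂ) : ℍ → ℂ := ∏ i, v ∣[k] D.rep i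

/-- The slash of a product of forms is the product of the slashes. -/
theorem prod_slash_int (f : ι → ℍ → ℂ) (k : ℤ) (γ : SL(2, ℤ)) :
    (∏ i, f i) ∣[k * Fintype.card ι] γ = ∏ i, f i ∣[k] γ := by
  rw [ModularForm.SL_slash, ← Finset.card_univ, ModularForm.prod_slash]
  simp [ModularForm.SL_slash]

/-- The transfer of a nonzero form is nonzero. -/
theorem transferFun_ne_zero (D : TransferData Γ ι) {k : ℤ} {v : ℍ → ℂ} (hv : MDiff v)
    (hv0 : v ≠ 0) : transferFun D k v ≠ 0 := by
  classical
  suffices H : ∀ s : Finset ι, ∏ x ∈ s, v ∣[k] D.rep x ≠ 0 from H _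
  intro s
  induction s using Finset.induction_on with
  | empty => rw [Finset.prod_empty]; exact one_ne_zero
  | insert x s hx ih =>
    rw [Finset.prod_insert hx]
    exact mul_ne_zero_of_mdiff (MDifferentiable.prod fun _ _ => hv.slash k _) (hv.slash k _)
      (slash_ne_zero _ hv0) ih

omit [Fintype ι] in
/-- A product of functions bounded at infinity is bounded there. -/
theorem isBounded_prod (f : ι → ℍ → ℂ) (hf : ∀ i, IsBoundedAtImInfty (f i)) (s : Finset ι) :
    IsBoundedAtImInfty (∏ i ∈ s, f i) :=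
  (Filter.boundedFilterSubalgebra ℂ atImInfty).prod_mem (f := f) fun i _ => hf i

/-- The transfer of a form with multiplier `φ` has the transferred multiplier, for integral
representatives. -/
theorem IsTwist.transfer (D : TransferData Γ ι)
    (hD : ∀ x i j, ∃ z : ℤ, (D.rep x : Matrix (Fin 2) (Fin 2) ℝ) i j = z) {k : ℤ}
    {φ : Γ →* ℂˣ} {v : ℍ → ℂ} (hv : IsTwist Γ k φ v) :
    IsTwist Γ (k * Fintype.card ι) (charOp D φ) (transferFun D k v) where
  mdiff := MDifferentiable.prod fun i _ => hv.mdiff.slash k _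
  slash γ := by
    rw [transferFun, prod_slash_int]
    have e : ∀ i, (v ∣[k] D.rep i) ∣[k] (γ : SL(2, ℤ)) =
        ((φ (D.factor γ i) : ℂˣ) : ℂ) • (v ∣[k] D.rep (D.perm γ i)) := fun i => by
      rw [ModularForm.SL_slash, ← SlashAction.slash_mul, D.factor_spec, SlashAction.slash_mul,
        ← ModularForm.SL_slash, hv.slash (D.factor γ i),
        show (fun τ => ((φ (D.factor γ i) : ℂˣ) : ℂ) * v τ) =
          ((φ (D.factor γ i) : ℂˣ) : ℂ) • v from rfl, ModularForm.smul_slash]
      simp [UpperHalfPlane.σ, D.det_pos]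
    simp only [e]
    funext τ
    simp only [Finset.prod_apply, Pi.smul_apply, smul_eq_mul, Finset.prod_mul_distrib, charOp_apply,
      Units.coe_prod]
    congr 1
    exact Equiv.prod_comp (D.perm γ) fun i => (v ∣[k] D.rep i) τ
  bdd γ := by
    rw [transferFun, prod_slash_int]
    refine isBounded_prod _ (fun i => ?_) _
    rw [ModularForm.SL_slash, ← SlashAction.slash_mul]
    refine hv.bdd_of_int _ fun a b => ?_
    obtain ⟨z0, h0⟩ := hD i a 0
    obtain ⟨z1, h1⟩ := hD i a 1
    refine ⟨z0 * γ 0 b + z1 * γ 1 b, ?_⟩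
    simp [Units.val_mul, Matrix.mul_apply, Fin.sum_univ_two, h0, h1]

end FermatAgent.ES
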