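import Fermat.Agent.ES.Cong.Normalize

/-!
# Inertia away from the level and the exponent acts trivially on parabolic characters
-/

set_option autoImplicit false

open UpperHalfPlane CongruenceSubgroup
open scoped MatrixGroups ModularForm

noncomputable section

namespace FermatAgent.ES

variable {N : ℕ} [NeZero N] {Γ : Subgroup SL(2, ℤ)}

/-- The action of Galois on parabolic characters is unramified away from `n N`. -/
theorem galChar_inertia (hG : GoodLevel N Γ) (n : ℕ) [NeZero n] {ℓ : ℕ} (hℓ : ℓ.Prime)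
    (hℓN : ¬ ℓ ∣ N) (hℓn : ¬ ℓ ∣ n) {A : ValuationSubring (AlgebraicClosure ℚ)}
    (hA : A.LiesOverPrime ℓ) {g : GQ} (hg : g ∈ A.inertiaSubgroupIn ℚ) :
    galChar hG n g = 1 := by
  have := Fact.mk hℓ
  obtain ⟨q, rfl⟩ : ∃ q, n = q + 1 := ⟨n - 1, by have := NeZero.pos n; omega⟩
  obtain ⟨Φ, hΦ⟩ := exists_padicEquiv_compat hA
  subst hΦ
  set P := CPlace.ofEquiv Φ
  have hP : P.HasCDVRs := hasCDVRs_ofEquiv Φ
  have hn : (q + 1).Coprime ℓ := (hℓ.coprime_iff_not_dvd.mpr hℓn).symm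
  have hres : ∃ hg : g ∈ P.algVal.decompositionSubgroup ℚ,
      ∀ x : IsLocalRing.ResidueField P.algVal,
        (⟨g, hg⟩ : P.algVal.decompositionSubgroup ℚ) • x = x ^ 1 :=
    (GaloisBasic.residue_action_iff hℓ hA g one_ne_zero).mpr fun b => by
      rw [pow_one]; exact (GaloisBasic.mem_inertiaSubgroupIn_iff hℓ hA g).mp hg b
  obtain ⟨M, m, r, haux, hM, hNM, hr, h12⟩ := exists_auxLevel_coprime hℓ hℓN
  have : NeZero M := ⟨fun h => NeZero.ne (12 * N) (by rw [h12, h, mul_zero])⟩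
  have hΓ : Gamma M ≤ Γ := (gamma_le_of_dvd hNM).trans hG.gamma_le
  ext1 φ
  obtain ⟨v, c, hv, hv0, hc, hc0, halg⟩ := exists_int_form haux hG hNM hr h12 hP hM hn φ
  obtain ⟨d, hd, hdq⟩ := exists_map_res_autC hres c halg
  obtain ⟨v', hv', -, hc'⟩ := exists_conj_level haux hG hNM hr h12 (autC g) φ hv hv0 hc
  rw [← hd] at hc'
  have hdc : d.map P.res = c.map P.res := PowerSeries.ext fun e => by
    rw [PowerSeries.coeff_map, PowerSeries.coeff_map, hdq, pow_one]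
  set ψ := conjChar hG (autC g) φ
  show ψ = φ
  have hwt : ((2 * 2 : ℕ) : ℤ) + (q : ℤ) * ((2 * 2 : ℕ) : ℤ) = ((2 * (2 * (q + 1)) : ℕ) : ℤ) := by
    push_cast; ring
  have hu := hv'.mul (hv.pow q)
  have hg0 := hv.mul (hv.pow q)
  rw [hwt] at hu hg0
  have e0 : (φ : Γ →* ℂˣ) * (φ : Γ →* ℂˣ) ^ q = 1 := MonoidHom.ext fun γ => by
    have := DFunLike.congr_fun φ.2.1 γ
    simpa [pow_succ'] using this
  rw [e0] at hg0
  have hmem : (ψ : Γ →* ℂˣ) * (φ : Γ →* ℂˣ) ^ q ∈ parGroup Γ (q + 1) :=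
    mul_mem ψ.2 (pow_mem φ.2 q)
  have key := mult_eq_one_res haux hΓ hP hM hn hmem.1 hmem.2 hu hg0
    (c := d * c ^ q) (d := c * c ^ q)
    (by rw [map_mul, map_pow]; exact hc'.mul (hc.pow q))
    (by rw [map_mul, map_pow]; exact hc.mul (hc.pow q))
    (by simp only [map_mul, map_pow, hdc])
    (by rw [map_mul, map_pow]; exact mul_ne_zero hc0 (pow_ne_zero _ hc0))
  refine Subtype.ext ?_
  exact mul_right_cancel (key.trans e0.symm)

end FermatAgent.ES
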