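import Fermat.Agent.ES.Cong.Transfer
import Fermat.Agent.ES.Cong.Inertia
import Mathlib.RingTheory.MvPowerSeries.Expand

/-!
# The Eichler–Shimura congruence relation on parabolic characters

`galChar_congruence`: for a prime `ℓ ∤ N n` and a Frobenius element `g` at `ℓ`, the Hecke transfer
of a parabolic character `φ` of `Γ₀(N)` of exponent `n` is `(g φ) (g⁻¹ φ) ^ ℓ`. The proof
(`galChar_congruence_of_forms`) compares weight four forms with multiplier: the reduction modulo `ℓ`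
of the series of the transferred form (`exists_transfer_series_pair`) is that of a product of Galois
conjugate forms, and congruent series force equal multipliers (`eq_of_congr_series`).
-/

set_option autoImplicit false

open UpperHalfPlane CongruenceSubgroup OnePoint
open scoped MatrixGroups ModularForm Manifold
open P2MW.S_ModularForm_heckeT_slash_eq_self_of_mem_Gamma0.ModularForm

noncomputable section

namespace FermatAgent.ES

/-- In characteristic `p` the `p`-th power of a series is its Frobenius twist expanded by `p`. -/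
theorem pow_char_series {R : Type*} [CommRing R] {p : ℕ} [ExpChar R p] (hp : p ≠ 0)
    (f : PowerSeries R) : f ^ p = (PowerSeries.expand p hp f).map (frobenius R p) :=
  (MvPowerSeries.map_frobenius_expand p hp).symm

/-- The residue field of a place over `ℓ` has characteristic `ℓ`. -/
theorem charP_residueField {ℓ : ℕ} (hℓ : ℓ.Prime) (P : CPlace ℓ) :
    CharP (IsLocalRing.ResidueField P.ring) ℓ :=
  (CharP.charP_iff_prime_eq_zero hℓ).mpr (by
    rw [← map_natCast P.res, P.res_eq_zero_iff]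
    simpa using P.lt_one)

theorem IsTwist.slash_T {Γ : Subgroup SL(2, ℤ)} (hT : ModularGroup.T ∈ Γ) {k : ℤ} {φ : Γ →* ℂˣ}
    (hφ : IsParChar Γ φ) {v : ℍ → ℂ} (hv : IsTwist Γ k φ v) :
    v ∣[k] (ModularGroup.T : SL(2, ℤ)) = v := by
  have h := hv.slash ⟨_, hT⟩
  rw [hφ ⟨_, hT⟩ (by simp [ModularGroup.coe_T, Matrix.trace_fin_two])] at h
  simpa using h

/-- A form with parabolic multiplier on a group containing `T` has a `q`-expansion of width one. -/
theorem hasExp_one_twist {Γ : Subgroup SL(2, ℤ)} (hT : ModularGroup.T ∈ Γ) {k : ℤ} {φ : Γ →* ℂˣ}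
    (hφ : IsParChar Γ φ) {v : ℍ → ℂ} (hv : IsTwist Γ k φ v) :
    HasExp 1 v (qExpansion ((1 : ℕ) : ℝ) v) := by
  have hT' := hv.slash_T hT hφ
  rw [← zpow_one (ModularGroup.T : SL(2, ℤ)), slash_T_zpow] at hT'
  exact HasExp.exists_of_bounded
    (Curve.periodic_comp_ofComplex_of_vadd fun τ => by simpa using congrFun hT' τ) hv.mdiff
    (by simpa using hv.bdd (1 : SL(2, ℤ)))

/-- `f (ℓ τ)` has the expansion `c (q ^ ℓ)`. -/
theorem hasExp_diag {ℓ : ℕ} (hℓ : ℓ ≠ 0) {f : ℍ → ℂ} {c : PowerSeries ℂ} (hc : HasExp 1 f c) :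
    HasExp 1 (fun τ => f (heckeDiagMatrix ℓ • τ)) (PowerSeries.expand ℓ hℓ c) := by
  intro τ
  have hinj : Function.Injective fun e : ℕ => ℓ * e := mul_right_injective₀ hℓ
  refine (hinj.hasSum_iff fun e he => ?_).mp ?_
  · rw [PowerSeries.coeff_expand_of_not_dvd ℓ hℓ, zero_mul]
    rintro ⟨q, rfl⟩
    exact he ⟨q, rfl⟩
  · refine (hc (heckeDiagMatrix ℓ • τ)).congr_fun fun e => ?_
    rw [Function.comp_apply, PowerSeries.coeff_expand_mul, pow_mul]
    congr 2
    rw [qm_eq, qm_eq, ← Complex.exp_nat_mul, ModularForm.coe_heckeDiagMatrix_smul hℓ]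
    congr 1
    push_cast; ring

/-- `f ((τ + j) / ℓ)` has the expansion `c (ζ ^ j q ^ (1 / ℓ))`. -/
theorem hasExp_shift {ℓ : ℕ} (hℓ : ℓ ≠ 0) (j : ℕ) {f : ℍ → ℂ} {c : PowerSeries ℂ}
    (hc : HasExp 1 f c) :
    HasExp ℓ (fun τ => f (heckeMatrix ℓ j • τ)) (PowerSeries.rescale (zetaC ℓ ^ j) c) := by
  intro τ
  refine (hc (heckeMatrix ℓ j • τ)).congr_fun fun e => ?_
  rw [PowerSeries.coeff_rescale, mul_comm ((zetaC ℓ ^ j) ^ e), mul_assoc, ← mul_pow]
  congr 2
  rw [qm_eq, qm_eq, zetaC, ← Complex.exp_nat_mul, ← Complex.exp_add,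
    ModularForm.coe_heckeMatrix_smul hℓ]
  congr 1
  push_cast; ring

variable {ℓ : ℕ} {P : CPlace ℓ}

theorem res_root_of_unity_eq_one (hℓ : ℓ.Prime) (x : P.ring) (hx : x ^ ℓ = 1) : P.res x = 1 := by
  have := Fact.mk hℓ
  have := charP_residueField hℓ P
  refine sub_eq_zero.mp (eq_zero_of_pow_eq_zero (n := ℓ) ?_)
  rw [sub_pow_char, one_pow, ← map_pow, hx, map_one, sub_self]

/-- An expansion of width one gives one of width `r`. -/
theorem hasExp_expand_one {r : ℕ} (hr : r ≠ 0) {f : ℍ → ℂ} {c : PowerSeries ℂ}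
    (h : HasExp 1 f c) : HasExp r f (PowerSeries.expand r hr c) := by
  have h' := h.expand hr; rwa [mul_one] at h'

/-- Expanding series is injective. -/
theorem expand_series_injective {R : Type*} [CommRing R] {r : ℕ} (hr : r ≠ 0) :
    Function.Injective (PowerSeries.expand r hr (R := R)) := fun a b h =>
    PowerSeries.ext fun e => by
  have h' := congrArg (PowerSeries.coeff (r * e)) h
  rwa [PowerSeries.coeff_expand_mul, PowerSeries.coeff_expand_mul] at h'

/-- An integral series of a larger period gives one of period one. -/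
theorem exists_series_one {r : ℕ} (hr : r ≠ 0) {f : ℍ → ℂ} {c : PowerSeries ℂ}
    {cK : PowerSeries P.ring} (hc : HasExp 1 f c) (hK : HasExp r f (cK.map P.ring.subtype))
    (halg : ∀ e, IsAlgebraic ℚ ((PowerSeries.coeff e cK : P.ring) : ℂ))
    (h0 : cK.map P.res ≠ 0) :
    ∃ d : PowerSeries P.ring, HasExp 1 f (d.map P.ring.subtype) ∧ d.map P.res ≠ 0 ∧
      ∀ e, IsAlgebraic ℚ ((PowerSeries.coeff e d : P.ring) : ℂ) := by
  have : NeZero r := ⟨hr⟩
  set d : PowerSeries P.ring := PowerSeries.mk fun e => PowerSeries.coeff (r * e) cK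
  have hq := hK.series_unique (hasExp_expand_one hr hc)
  have hd : d.map P.ring.subtype = c := PowerSeries.ext fun e => by
    have h := congrArg (PowerSeries.coeff (r * e)) hq
    rw [PowerSeries.coeff_map, PowerSeries.coeff_expand_mul] at h
    rw [PowerSeries.coeff_map, PowerSeries.coeff_mk, h]
  have he : PowerSeries.expand r hr d = cK :=
    PowerSeries.map_injective P.ring.subtype Subtype.val_injective
      (by rw [PowerSeries.map_expand, hd, hq])
  refine ⟨d, hd ▸ hc, fun h => h0 (by rw [← he, PowerSeries.map_expand, h, map_zero]), fun e => ?_⟩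
  rw [PowerSeries.coeff_mk]; exact halg _

/-- The series of a product `w (ℓ τ) ∏ v ((τ + j) / ℓ)` reduces to `expand ℓ d̄ * frobenius c̄`. -/
theorem exists_transfer_series_pair (hℓ : ℓ.Prime) [NeZero ℓ] {v w u : ℍ → ℂ} {U : PowerSeries ℂ}
    (hu : HasExp 1 u U) (hU : ∀ τ, u τ = w (heckeDiagMatrix ℓ • τ) *
      ∏ j : ZMod ℓ, v (heckeMatrix ℓ j.val • τ))
    {c d : PowerSeries P.ring} (hc : HasExp 1 v (c.map P.ring.subtype))
    (hd : HasExp 1 w (d.map P.ring.subtype)) :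
    ∃ U' : PowerSeries P.ring, U'.map P.ring.subtype = U ∧
      haveI := charP_residueField hℓ P
      haveI := Fact.mk hℓ
      U'.map P.res = PowerSeries.expand ℓ hℓ.ne_zero (d.map P.res) *
        (c.map P.res).map (frobenius _ ℓ) := by
  have := charP_residueField hℓ P
  have := Fact.mk hℓ
  have hℓ0 := hℓ.ne_zero
  set z : P.ring := ⟨zetaC ℓ, (P.abv_eq_one_of_pow_eq_one hℓ0
    (zetaC_isPrimitiveRoot ℓ).pow_eq_one).le⟩
  have hz : P.res z = 1 := res_root_of_unity_eq_one hℓ z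
    (Subtype.ext (zetaC_isPrimitiveRoot ℓ).pow_eq_one)
  set Q : PowerSeries P.ring := PowerSeries.expand ℓ hℓ0 (PowerSeries.expand ℓ hℓ0 d) *
    ∏ j : ZMod ℓ, PowerSeries.rescale (z ^ j.val) c
  have hresc : ∀ j : ℕ, (PowerSeries.rescale (z ^ j) c).map P.ring.subtype =
      PowerSeries.rescale (zetaC ℓ ^ j) (c.map P.ring.subtype) := fun j => by
    ext e
    simp only [PowerSeries.coeff_map, PowerSeries.coeff_rescale, map_mul, map_pow]
    rfl
  have hQ : Q.map P.ring.subtype = PowerSeries.expand ℓ hℓ0 U := by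
    refine HasExp.series_unique (M := ℓ) (f := u) ?_ (hasExp_expand_one hℓ0 hu)
    rw [map_mul, map_prod, PowerSeries.map_expand, PowerSeries.map_expand]
    simp only [hresc]
    refine ((hasExp_expand_one hℓ0 (hasExp_diag hℓ0 hd)).mul (HasExp.prod Finset.univ
      (F := fun (j : ZMod ℓ) τ => v (heckeMatrix ℓ j.val • τ))
      fun j _ => hasExp_shift hℓ0 j.val hc)).congr_fun fun τ => ?_
    rw [hU, Pi.mul_apply, Finset.prod_apply]
  set U' : PowerSeries P.ring := PowerSeries.mk fun e => PowerSeries.coeff (ℓ * e) Q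
  have hU' : U'.map P.ring.subtype = U := by
    ext e
    have h := congrArg (PowerSeries.coeff (ℓ * e)) hQ
    rw [PowerSeries.coeff_map, PowerSeries.coeff_expand_mul] at h
    rw [PowerSeries.coeff_map, PowerSeries.coeff_mk, h]
  refine ⟨U', hU', ?_⟩
  have hQU : PowerSeries.expand ℓ hℓ0 U' = Q :=
    PowerSeries.map_injective P.ring.subtype Subtype.val_injective
      (by rw [PowerSeries.map_expand, hU', hQ])
  refine expand_series_injective hℓ0 ?_
  rw [← PowerSeries.map_expand, hQU, map_mul, map_prod, PowerSeries.map_expand,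
    PowerSeries.map_expand, map_mul]
  congr 1
  have h1 : ∀ j : ZMod ℓ, (PowerSeries.rescale (z ^ j.val) c).map P.res = c.map P.res := fun j => by
    ext e; simp [PowerSeries.coeff_rescale, hz]
  simp only [h1]
  rw [Finset.prod_const, Finset.card_univ, ZMod.card, pow_char_series hℓ0,
    PowerSeries.map_expand]

/-- A product over `OnePoint X` splits off the point at infinity. -/
theorem prod_onePoint {X M : Type*} [Fintype X] [CommMonoid M] (f : OnePoint X → M) :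
    ∏ x, f x = f ∞ * ∏ x : X, f x :=
  Fintype.prod_option f

/-- The conjugate by the inverse of a Frobenius is integral, with residue an `ℓ`-th root. -/
private theorem exists_map_res_autC_inv [Fact ℓ.Prime] {g : GQ} (hg : P.algVal.IsFrobeniusAt g ℓ)
    {c : PowerSeries P.ring} (halg : ∀ e, IsAlgebraic ℚ ((PowerSeries.coeff e c : P.ring) : ℂ)) :
    ∃ d' : PowerSeries P.ring,
      d'.map P.ring.subtype = (c.map P.ring.subtype).map ((autC g⁻¹ : ℂ ≃+* ℂ) : ℂ →+* ℂ) ∧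
      ∀ e, P.res (PowerSeries.coeff e c) = P.res (PowerSeries.coeff e d') ^ ℓ := by
  have hinv : ∀ e, ∃ y : P.ring, (y : ℂ) = autC g⁻¹ (PowerSeries.coeff e c : P.ring) ∧
      P.res (PowerSeries.coeff e c) = P.res y ^ ℓ := fun e => by
    obtain ⟨x, hx⟩ := exists_embC_eq (halg e)
    have hxA : x ∈ P.algVal := CPlace.mem_algVal.mpr (hx ▸ (PowerSeries.coeff e c).2)
    have hmem : g⁻¹ x ∈ P.algVal :=
      ((⟨g, hg.mem_decompositionSubgroup⟩ : P.algVal.decompositionSubgroup ℚ)⁻¹ •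
        (⟨x, hxA⟩ : P.algVal)).2
    have h := (abv_autC_sub_pow_lt hg (isAlgebraic_embC (g⁻¹ x)) (CPlace.mem_algVal.mp hmem)).2
    rw [autC_spec, ← AlgEquiv.mul_apply, mul_inv_cancel, AlgEquiv.one_apply] at h
    refine ⟨⟨embC (g⁻¹ x), CPlace.mem_algVal.mp hmem⟩, by rw [← hx, autC_spec], ?_⟩
    rw [← map_pow, P.res_eq_iff, SubmonoidClass.coe_pow, ← hx]
    exact h
  choose y hy hyq using hinv
  exact ⟨PowerSeries.mk y, by ext e; simp [hy], fun e => by rw [PowerSeries.coeff_mk]; exact hyq e⟩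

/-- The Hecke matrices `(1 a; 0 ℓ)` are integral. -/
theorem heckeMatrix_int {ℓ : ℕ} (hℓ : ℓ ≠ 0) (a : ℕ) (i j : Fin 2) :
    ∃ z : ℤ, (heckeMatrix ℓ a : Matrix (Fin 2) (Fin 2) ℝ) i j = z := by
  rw [ModularForm.val_heckeMatrix hℓ]
  fin_cases i <;> fin_cases j
  · exact ⟨1, by simp⟩
  · exact ⟨a, by simp⟩
  · exact ⟨0, by simp⟩
  · exact ⟨ℓ, by simp⟩

theorem heckeDiagMatrix_int {ℓ : ℕ} (hℓ : ℓ ≠ 0) (i j : Fin 2) :
    ∃ z : ℤ, (heckeDiagMatrix ℓ : Matrix (Fin 2) (Fin 2) ℝ) i j = z := by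
  rw [ModularForm.val_heckeDiagMatrix hℓ]
  fin_cases i <;> fin_cases j
  · exact ⟨ℓ, by simp⟩
  · exact ⟨0, by simp⟩
  · exact ⟨0, by simp⟩
  · exact ⟨1, by simp⟩

/-- The representatives of `T_ℓ` are integral. -/
theorem transferDataT_int {N ℓ : ℕ} [hℓ : Fact ℓ.Prime] (hℓN : ¬ ℓ ∣ N) (x : OnePoint (ZMod ℓ))
    (i j : Fin 2) :
    ∃ z : ℤ, ((Period.transferDataT hℓN).rep x : Matrix (Fin 2) (Fin 2) ℝ) i j = z := by
  induction x using OnePoint.rec with
  | infty => exact heckeDiagMatrix_int hℓ.out.ne_zero i j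
  | coe a => exact heckeMatrix_int hℓ.out.ne_zero a.val i j

/-- The normalised transfer as a product over the representatives. -/
private theorem smul_transferFun_apply [Fact ℓ.Prime] {N : ℕ} (hℓN : ¬ ℓ ∣ N) (k : ℤ)
    (v : ℍ → ℂ) (τ : ℍ) :
    (((ℓ : ℂ) ^ (k - 1) * ((ℓ : ℂ)⁻¹) ^ ℓ)⁻¹ •
      transferFun (Period.transferDataT (N := N) hℓN) k v) τ =
      v (heckeDiagMatrix ℓ • τ) * ∏ j : ZMod ℓ, v (heckeMatrix ℓ j.val • τ) := by
  have hℓ : ℓ.Prime := Fact.out
  set D := Period.transferDataT (N := N) hℓN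
  have e1 : (v ∣[k] D.rep ∞) τ = (ℓ : ℂ) ^ (k - 1) * v (heckeDiagMatrix ℓ • τ) :=
    ModularForm.slash_heckeDiagMatrix_apply k hℓ.ne_zero v τ
  have e2 : ∀ j : ZMod ℓ, (v ∣[k] D.rep j) τ = (ℓ : ℂ)⁻¹ * v (heckeMatrix ℓ j.val • τ) :=
    fun j => ModularForm.slash_heckeMatrix_apply k hℓ.ne_zero j.val v τ
  simp only [Pi.smul_apply, smul_eq_mul, transferFun, Finset.prod_apply]
  rw [prod_onePoint, e1]
  simp only [e2, Finset.prod_mul_distrib, Finset.prod_const, Finset.card_univ, ZMod.card]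
  have hℓC : (ℓ : ℂ) ≠ 0 := Nat.cast_ne_zero.mpr hℓ.ne_zero
  field_simp

/-- Two characters of order dividing `n`, prime to `ℓ`, are equal when they twist forms of the same
weight whose series are integral, congruent modulo `P` and nonzero there. -/
theorem eq_of_congr_series {K m n : ℕ} [NeZero K] [NeZero n] {Γ : Subgroup SL(2, ℤ)}
    (haux : AuxLevel K m) (hΓ : Gamma K ≤ Γ) (hP : P.HasCDVRs) (hK : K.Coprime ℓ)
    (hn : n.Coprime ℓ) {i : ℕ} {T ψ : Γ →* ℂˣ} (hT : T ∈ parGroup Γ n) (hψ : ψ ∈ parGroup Γ n)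
    {u w : ℍ → ℂ} (hu : IsTwist Γ ((2 * i : ℕ) : ℤ) T u) (hw : IsTwist Γ ((2 * i : ℕ) : ℤ) ψ w)
    {c d : PowerSeries P.ring} (hc : HasExp K u (c.map P.ring.subtype))
    (hd : HasExp K w (d.map P.ring.subtype)) (hres : c.map P.res = d.map P.res)
    (hd0 : d.map P.res ≠ 0) : T = ψ := by
  obtain ⟨q, rfl⟩ : ∃ q, n = q + 1 := ⟨n - 1, by have := NeZero.pos n; omega⟩
  have hu2 := hu.mul (hw.pow q)
  have hww := hw.mul (hw.pow q)
  rw [show ((2 * i : ℕ) : ℤ) + (q : ℤ) * ((2 * i : ℕ) : ℤ) = ((2 * (i * (q + 1)) : ℕ) : ℤ) by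
    push_cast; ring] at hu2 hww
  have e0 : ψ * ψ ^ q = 1 := MonoidHom.ext fun γ => by
    have := DFunLike.congr_fun hψ.1 γ
    simpa [pow_succ'] using this
  rw [e0] at hww
  have hmem : T * ψ ^ q ∈ parGroup Γ (q + 1) := mul_mem hT (pow_mem hψ q)
  have key := mult_eq_one_res haux hΓ hP hK hn hmem.1 hmem.2 hu2 hww
    (c := c * d ^ q) (d := d * d ^ q)
    (by rw [map_mul, map_pow]; exact hc.mul (hd.pow q))
    (by rw [map_mul, map_pow]; exact hd.mul (hd.pow q))
    (by simp only [map_mul, map_pow, hres])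
    (by rw [map_mul, map_pow]; exact mul_ne_zero hd0 (pow_ne_zero q hd0))
  exact mul_right_cancel (key.trans e0.symm)

/-- **The congruence relation at a good level.** Let `v`, `w` be twists by characters `φ`, `φ'` with
series integral and nonzero modulo a place `P` over `ℓ`, for which `g` is Frobenius. The character
`T` twisting their transfer `τ ↦ w(ℓτ) ∏ⱼ v((τ + j)/ℓ)` is `(g φ) (g⁻¹ φ')^ℓ`: modulo `P` the
series of the transfer is the product of that of the conjugate of `v` by `g` and the `ℓ`-th power of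
that of the conjugate of `w` by `g⁻¹`. -/
theorem galChar_congruence_of_forms [Fact ℓ.Prime] {M K m r n : ℕ} [NeZero M] [NeZero K] [NeZero n]
    {Γ : Subgroup SL(2, ℤ)} (hG : GoodLevel M Γ) (haux : AuxLevel K m) (hMK : M ∣ K) (hr : r ≠ 0)
    (h12 : 12 * M = r * K) (hP : P.HasCDVRs) (hK : K.Coprime ℓ) (hn : n.Coprime ℓ) {g : GQ}
    (hg : P.algVal.IsFrobeniusAt g ℓ) (φ φ' : parGroup Γ n) {v w : ℍ → ℂ}
    (hv : IsTwist Γ ((2 * 2 : ℕ) : ℤ) (φ : Γ →* ℂˣ) v) (hv0 : v ≠ 0)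
    (hw : IsTwist Γ ((2 * 2 : ℕ) : ℤ) (φ' : Γ →* ℂˣ) w) (hw0 : w ≠ 0)
    {cK dK : PowerSeries P.ring} (hcK : HasExp K v (cK.map P.ring.subtype))
    (hdK : HasExp K w (dK.map P.ring.subtype)) (hcK0 : cK.map P.res ≠ 0) (hdK0 : dK.map P.res ≠ 0)
    (halgc : ∀ e, IsAlgebraic ℚ ((PowerSeries.coeff e cK : P.ring) : ℂ))
    (halgd : ∀ e, IsAlgebraic ℚ ((PowerSeries.coeff e dK : P.ring) : ℂ))
    {T : Γ →* ℂˣ} (hT : T ∈ parGroup Γ n)
    (hu : IsTwist Γ (((2 * 2 : ℕ) : ℤ) * ((ℓ : ℤ) + 1)) T fun τ =>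
      w (heckeDiagMatrix ℓ • τ) * ∏ j : ZMod ℓ, v (heckeMatrix ℓ j.val • τ)) :
    T = (galChar hG n g φ : Γ →* ℂˣ) * (galChar hG n g⁻¹ φ' : Γ →* ℂˣ) ^ ℓ := by
  have hℓ : ℓ.Prime := Fact.out
  have : NeZero ℓ := ⟨hℓ.ne_zero⟩
  have := charP_residueField hℓ P
  have hΓ : Gamma K ≤ Γ := (gamma_le_of_dvd hMK).trans hG.gamma_le
  have hK0 := NeZero.ne K
  set k : ℤ := ((2 * 2 : ℕ) : ℤ) with hk
  obtain ⟨c, hc, hc0, halg⟩ :=
    exists_series_one hK0 (hasExp_one_twist hG.T_mem φ.2.2 hv) hcK halgc hcK0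
  obtain ⟨d, hd, hd0, halgd'⟩ :=
    exists_series_one hK0 (hasExp_one_twist hG.T_mem φ'.2.2 hw) hdK halgd hdK0
  -- conjugate forms
  obtain ⟨c1, hc1s, hc1q⟩ := exists_map_res_autC hg c halg
  obtain ⟨d', hd', hyq⟩ := exists_map_res_autC_inv hg halgd'
  obtain ⟨v1, hv1, -, hv1e⟩ :=
    exists_conj_level haux hG hMK hr h12 (autC g) φ hv hv0 (hasExp_expand_one hK0 hc)
  obtain ⟨w2, hw2, -, hw2e⟩ :=
    exists_conj_level haux hG hMK hr h12 (autC g⁻¹) φ' hw hw0 (hasExp_expand_one hK0 hd)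
  rw [PowerSeries.map_expand, ← hc1s, ← PowerSeries.map_expand] at hv1e
  rw [PowerSeries.map_expand, ← hd', ← PowerSeries.map_expand] at hw2e
  -- the transfer
  set u := fun τ => w (heckeDiagMatrix ℓ • τ) * ∏ j : ZMod ℓ, v (heckeMatrix ℓ j.val • τ)
  obtain ⟨U', hU', hUres⟩ := exists_transfer_series_pair hℓ (u := u)
    (hasExp_one_twist hG.T_mem hT.2 hu) (fun τ => rfl) hc hd
  have hcu : HasExp K u ((PowerSeries.expand K hK0 U').map P.ring.subtype) := by
    rw [PowerSeries.map_expand, hU']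
    exact hasExp_expand_one hK0 (hasExp_one_twist hG.T_mem hT.2 hu)
  set ψ1 := galChar hG n g φ
  set ψ2 := galChar hG n g⁻¹ φ'
  have hvw : IsTwist Γ (k + (ℓ : ℤ) * k)
      ((ψ1 : Γ →* ℂˣ) * (ψ2 : Γ →* ℂˣ) ^ ℓ) (v1 * w2 ^ ℓ) := hv1.mul (hw2.pow ℓ)
  have hcw : HasExp K (v1 * w2 ^ ℓ)
      ((PowerSeries.expand K hK0 (c1 * d' ^ ℓ)).map P.ring.subtype) := by
    rw [map_mul, map_pow, map_mul, map_pow]
    exact hv1e.mul (hw2e.pow ℓ)
  have hres : U'.map P.res = (c1 * d' ^ ℓ).map P.res := by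
    have h1 : c1.map P.res = (c.map P.res).map (frobenius _ ℓ) := PowerSeries.ext fun e => by
      simp only [PowerSeries.coeff_map, frobenius_def, hc1q]
    have h2 : (d'.map P.res).map (frobenius _ ℓ) = d.map P.res := PowerSeries.ext fun e => by
      simp only [PowerSeries.coeff_map, frobenius_def, hyq]
    rw [hUres, map_mul, map_pow, pow_char_series hℓ.ne_zero, PowerSeries.map_expand, h2, h1]
    ring
  have hD0 : (c1 * d' ^ ℓ).map P.res ≠ 0 := by
    rw [← hres, hUres]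
    refine mul_ne_zero
      (fun h0 => hd0 (expand_series_injective hℓ.ne_zero (h0.trans (map_zero _).symm)))
      fun h0 => hc0 ?_
    exact PowerSeries.map_injective _ (RingHom.injective _) (h0.trans (map_zero _).symm)
  -- comparison
  have hwt : k + (ℓ : ℤ) * k = ((2 * (2 * (ℓ + 1)) : ℕ) : ℤ) := by
    simp only [hk]; push_cast; ring
  rw [show k * ((ℓ : ℤ) + 1) = k + (ℓ : ℤ) * k by ring, hwt] at hu
  rw [hwt] at hvw
  refine eq_of_congr_series haux hΓ hP hK hn hT (mul_mem ψ1.2 (pow_mem ψ2.2 ℓ)) hu hvw hcu hcw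
    (by simp only [PowerSeries.map_expand, hres]) fun h0 => hD0 ?_
  rw [PowerSeries.map_expand] at h0
  exact expand_series_injective hK0 (h0.trans (map_zero _).symm)

variable {N : ℕ} [NeZero N]

/-- **The congruence relation** `T_ℓ = Frob + ℓ Frob⁻¹` on parabolic characters of `Γ₀(N)` of order
dividing `n`, written multiplicatively: the transfer of `φ` along the Hecke correspondence at
`ℓ ∤ N n` is `(g φ) (g⁻¹ φ)^ℓ` for a Frobenius element `g` at `ℓ`. -/
theorem galChar_congruence {n : ℕ} [NeZero n] [Fact ℓ.Prime] (hℓN : ¬ ℓ ∣ N)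
    (hℓn : ¬ ℓ ∣ n) {A : ValuationSubring (AlgebraicClosure ℚ)} (hA : A.LiesOverPrime ℓ) {g : GQ}
    (hg : A.IsFrobeniusAt g ℓ) (φ : parGroup (Gamma0 N) n) :
    charOp (Period.transferDataT hℓN) (φ : Gamma0 N →* ℂˣ) =
      (galChar (goodLevel_Gamma0 N) n g φ : Gamma0 N →* ℂˣ) *
        (galChar (goodLevel_Gamma0 N) n g⁻¹ φ : Gamma0 N →* ℂˣ) ^ ℓ := by
  have hℓ : ℓ.Prime := Fact.out
  have : NeZero ℓ := ⟨hℓ.ne_zero⟩
  obtain ⟨Φ, rfl⟩ := exists_padicEquiv_compat hA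
  have hn := (hℓ.coprime_iff_not_dvd.mpr hℓn).symm
  obtain ⟨M, m, r, haux, hM, hNM, hr, h12⟩ := exists_auxLevel_coprime hℓ hℓN
  have : NeZero M := ⟨fun h => NeZero.ne (12 * N) (by rw [h12, h, mul_zero])⟩
  obtain ⟨v, c, hv, hv0, hc, hc0, halg⟩ :=
    exists_int_form haux (goodLevel_Gamma0 N) hNM hr h12 (hasCDVRs_ofEquiv Φ) hM hn φ
  refine galChar_congruence_of_forms _ haux hNM hr h12 (hasCDVRs_ofEquiv Φ) hM hn hg φ φ hv hv0
    hv hv0 hc hc hc0 hc0 halg halg (charOp_mem_parGroup _ φ.2) ?_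
  set k : ℤ := ((2 * 2 : ℕ) : ℤ)
  have hu := (hv.transfer (Period.transferDataT hℓN) (transferDataT_int hℓN)).smul
    (((ℓ : ℂ) ^ (k - 1) * ((ℓ : ℂ)⁻¹) ^ ℓ)⁻¹)
  rw [show Fintype.card (OnePoint (ZMod ℓ)) = ℓ + 1 from
    (Fintype.card_option (α := ZMod ℓ)).trans (by rw [ZMod.card]), Nat.cast_add, Nat.cast_one,
    funext (smul_transferFun_apply hℓN k v)] at hu
  exact hu

end FermatAgent.ES
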